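/-
P-S48 (Deligne–Serre), RES-EXTRACT (helper78): the mod `m` cyclotomic character of `Gal(ℚ̄/ℚ)`.

`cycloMod m : Γ →* (ZMod m)ˣ` with
* `cycloMod_spec` : `σ t = t ^ (χ σ).val` on `m`-th roots of unity;
* `cycloMod_level` : finite level (`ℚ(ζ_m)`);
* `cycloMod_frob` : a Frobenius element at `p ∤ m` is sent to `p`;
* `cycloMod_inertia` : inertia at `q ∤ m` is sent to `1`.
(The `p`-adic analogue is helper98's `Gateway/S30/CycloSpec.lean`, whose root-of-unity lemmas
from `Gateway/S31/RootsOfUnity.lean` are reused.)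
-/
import Mathlib
import Fermat.Prelude.Def_GaloisRep_Residual
import Fermat.Agent.Gateway.S30.CycloSpec

set_option autoImplicit false

namespace Fermat.Agent.S48x.Extract

open Fermat.Agent.Gateway.S31Red Fermat.Agent.Gateway.Assembly

local notation "Γ" => (AlgebraicClosure ℚ ≃ₐ[ℚ] AlgebraicClosure ℚ)

local notation "Qb" => AlgebraicClosure ℚ

/-- `ℚ̄` has all `m`-th roots of unity. -/
theorem hasEnoughRootsOfUnity_Qb (m : ℕ) [NeZero m] : HasEnoughRootsOfUnity Qb m :=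
  have : NeZero (m : ℚ) := ⟨by exact_mod_cast NeZero.ne m⟩
  AlgebraicClosure.hasEnoughRootsOfUnity ℚ m

theorem natCard_rootsOfUnity_Qb (m : ℕ) [NeZero m] : Nat.card (rootsOfUnity m Qb) = m :=
  haveI := hasEnoughRootsOfUnity_Qb m
  HasEnoughRootsOfUnity.natCard_rootsOfUnity Qb m

/-- The mod `m` cyclotomic character of `Gal(ℚ̄/ℚ)`. -/
noncomputable def cycloMod (m : ℕ) [NeZero m] : Γ →* (ZMod m)ˣ :=
  (modularCyclotomicCharacter Qb (natCard_rootsOfUnity_Qb m)).comp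
    (MulSemiringAction.toRingAut Γ Qb)

theorem cycloMod_apply (m : ℕ) [NeZero m] (σ : Γ) :
    cycloMod m σ = modularCyclotomicCharacter Qb (natCard_rootsOfUnity_Qb m)
      (MulSemiringAction.toRingAut Γ Qb σ) := rfl

/-- The defining property. -/
theorem cycloMod_spec (m : ℕ) [NeZero m] (σ : Γ) {t : Qb} (ht : t ^ m = 1) :
    σ t = t ^ ((cycloMod m σ : (ZMod m)ˣ) : ZMod m).val := by
  have ht0 : t ≠ 0 := by
    rintro rfl
    rw [zero_pow (NeZero.ne m)] at ht
    exact zero_ne_one ht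
  have hmem : Units.mk0 t ht0 ∈ rootsOfUnity m Qb := by
    rw [mem_rootsOfUnity]
    apply Units.ext
    rw [Units.val_pow_eq_pow_val, Units.val_mk0, ht, Units.val_one]
  have h := modularCyclotomicCharacter.spec Qb (natCard_rootsOfUnity_Qb m)
    (MulSemiringAction.toRingAut Γ Qb σ) hmem
  rw [Units.val_mk0] at h
  rw [cycloMod_apply]
  exact h

/-- Characterisation. -/
theorem cycloMod_eq_of_forall (m : ℕ) [NeZero m] (σ : Γ) (c : (ZMod m)ˣ)
    (h : ∀ t : Qb, t ^ m = 1 → σ t = t ^ ((c : (ZMod m)ˣ) : ZMod m).val) :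
    cycloMod m σ = c := by
  apply Units.ext
  rw [cycloMod_apply]
  refine (modularCyclotomicCharacter.unique Qb (natCard_rootsOfUnity_Qb m)
    (MulSemiringAction.toRingAut Γ Qb σ) (c := ((c : (ZMod m)ˣ) : ZMod m)) ?_).symm
  intro t ht
  have ht' : ((t : Qbˣ) : Qb) ^ m = 1 := by
    have := (mem_rootsOfUnity _ _).mp ht
    rw [← Units.val_pow_eq_pow_val, this, Units.val_one]
  exact h _ ht'

/-- Finite level. -/
theorem cycloMod_level (m : ℕ) [NeZero m] : GaloisFactorsThroughFiniteLevel (cycloMod m) := by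
  have := hasEnoughRootsOfUnity_Qb m
  obtain ⟨ζ, hζ⟩ := HasEnoughRootsOfUnity.exists_primitiveRoot Qb m
  refine ⟨IntermediateField.adjoin ℚ {ζ}, IntermediateField.adjoin.finiteDimensional
    (hζ.isIntegral (Nat.pos_of_neZero _)).tower_top, fun σ hσ => ?_⟩
  have hσζ : σ ζ = ζ := hσ ζ (IntermediateField.mem_adjoin_simple_self ℚ ζ)
  refine cycloMod_eq_of_forall m σ 1 fun t ht => ?_
  obtain ⟨i, -, rfl⟩ := hζ.eq_pow_of_pow_eq_one ht
  rw [map_pow, hσζ]
  have h1 : (((1 : (ZMod m)ˣ) : (ZMod m)ˣ) : ZMod m) = ((1 : ℕ) : ZMod m) := by simp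
  rw [h1, pow_val_natCast_eq (by rw [← pow_mul, mul_comm, pow_mul, hζ.pow_eq_one, one_pow]),
    pow_one]

/-- A Frobenius element at `p ∤ m` is sent to `p`. -/
theorem cycloMod_frob (m : ℕ) [NeZero m] {p : ℕ} (hp : p.Prime) (hpm : ¬ p ∣ m)
    (A : ValuationSubring Qb) (hA : A.LiesOverPrime p) (σ : Γ) (hσ : A.IsFrobeniusAt σ p) :
    cycloMod m σ = ZMod.unitOfCoprime p ((Nat.Prime.coprime_iff_not_dvd hp).mpr hpm) := by
  refine cycloMod_eq_of_forall m σ _ fun t ht => ?_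
  rw [frob_apply_rootOfUnity hp hA hσ hpm ht, ZMod.coe_unitOfCoprime, pow_val_natCast_eq ht]

/-- Inertia at `q ∤ m` is sent to `1`. -/
theorem cycloMod_inertia (m : ℕ) [NeZero m] {q : ℕ} (hq : q.Prime) (hqm : ¬ q ∣ m)
    (P : ValuationSubring Qb) (hP : P.LiesOverPrime q) (τ : Γ)
    (hτ : τ ∈ P.inertiaSubgroupIn ℚ) : cycloMod m τ = 1 := by
  refine cycloMod_eq_of_forall m τ 1 fun t ht => ?_
  rw [apply_rootOfUnity_of_mem_inertia hq hP hτ hqm ht]
  have h1 : (((1 : (ZMod m)ˣ) : (ZMod m)ˣ) : ZMod m) = ((1 : ℕ) : ZMod m) := by simp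
  rw [h1, pow_val_natCast_eq ht, pow_one]

end Fermat.Agent.S48x.Extract
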