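/-
P-S48 (Deligne–Serre), RES-EXTRACT, algebraic core (helper78).

Over an algebraically closed field `K` in which `2` is invertible: if every element `g` of a group
acting on a finite-dimensional space `W ≠ 0` satisfies a quadratic relation
`g² - a g + δ(g) = 0` with `δ` a character, then there is a homomorphism `r : G →* GL₂(K)` with
`det r = δ`, `trace (r g) = a` for EVERY scalar `a` for which `g` satisfies the relation on `W`,
trivial on the common kernel of the action and of `δ`, and semisimple in the weak sense of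
helper68 (a common eigenvector has an independent common eigenvector).

This is the characteristic `≠ 2` version of helper3's `Gateway/S30/QuadraticRep.lean` (whose
Burnside and graph lemmas are reused; only the part using characteristic zero is redone),
followed by the construction of `r`: the action on a minimal stable subspace `U` if `dim U = 2`
(then irreducible), and `ψ ⊕ δ ψ⁻¹` if `U` is a line on which `G` acts through `ψ`.
-/
import Fermat.Agent.Gateway.S30.QuadraticRep

set_option autoImplicit false
set_option linter.unusedSectionVars false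
set_option linter.style.haveILetI false

namespace Fermat.Agent.S48x.Extract

open Polynomial Fermat.Agent.Gateway.Assembly Fermat.Agent.Gateway.Assembly.QuadraticRep

/-- Weak semisimplicity of a two-dimensional representation (helper68's `hss` for its range):
every common eigenvector has a linearly independent common eigenvector. -/
def WeakSS {K G : Type*} [Field K] [Group G] (r : G →* GL (Fin 2) K) : Prop :=
  ∀ v : Fin 2 → K, v ≠ 0 →
    (∀ g, ∃ c : K, (r g : Matrix (Fin 2) (Fin 2) K).mulVec v = c • v) →
    ∃ w : Fin 2 → K, (∀ c : K, w ≠ c • v) ∧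
      ∀ g, ∃ c : K, (r g : Matrix (Fin 2) (Fin 2) K).mulVec w = c • w

/-! ### The irreducible case in characteristic `≠ 2` -/

section Irreducible

variable {K : Type*} [Field K] [IsAlgClosed K] {G : Type*} [Group G]
  {U : Type*} [AddCommGroup U] [Module K U] [FiniteDimensional K U] [Nontrivial U]
  (r : G →* Module.End K U) (ε : G →* Kˣ) (a : G → K)
  (hq : ∀ g, r g * r g - a g • r g + ((ε g : Kˣ) : K) • (1 : Module.End K U) = 0)
  (hirr : ∀ W : Submodule K U, (∀ g, ∀ x ∈ W, r g x ∈ W) → W = ⊥ ∨ W = ⊤)
  (hd : 2 ≤ Module.finrank K U)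

include hirr hd in
theorem exists_nonscalar' : ∃ h : G, ∀ c : K, r h ≠ c • (1 : Module.End K U) := by
  by_contra H
  push Not at H
  obtain ⟨v, hv⟩ := exists_ne (0 : U)
  have hst : ∀ g, ∀ x ∈ Submodule.span K {v}, r g x ∈ Submodule.span K {v} := by
    intro g x hx
    obtain ⟨c, hc⟩ := H g
    rw [hc, LinearMap.smul_apply, Module.End.one_apply]
    exact Submodule.smul_mem _ _ hx
  rcases hirr _ hst with h | h
  · have : v ∈ Submodule.span K {v} := Submodule.mem_span_singleton_self v
    rw [h, Submodule.mem_bot] at this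
    exact hv this
  · have h1 : Module.finrank K (Submodule.span K {v}) = 1 := finrank_span_singleton hv
    rw [h, finrank_top] at h1
    omega

include hirr in
theorem exists_graph' (x : Module.End K U) : ∃ y, (x, y) ∈ graph r ε := by
  have hx : x ∈ Submodule.span K (Set.range r) := by
    rw [span_range_eq_top_of_irreducible r hirr]; trivial
  induction hx using Submodule.span_induction with
  | mem x hx =>
    obtain ⟨g, rfl⟩ := hx
    exact ⟨_, gen_mem_graph r ε g⟩
  | zero => exact ⟨0, by rw [Prod.mk_zero_zero]; exact zero_mem _⟩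
  | add x y _ _ hx hy =>
    obtain ⟨x', hx'⟩ := hx
    obtain ⟨y', hy'⟩ := hy
    exact ⟨x' + y', by simpa using (graph r ε).add_mem hx' hy'⟩
  | smul t x _ hx =>
    obtain ⟨x', hx'⟩ := hx
    exact ⟨t • x', by simpa using (graph r ε).smul_mem t hx'⟩

include hq hirr in
theorem quadratic_identity' (u : Module.End K U) :
    ∃ s c : K, (2 : K) • (u * u) - (2 * s) • u + c • (1 : Module.End K U) = 0 := by
  obtain ⟨y, hy⟩ := exists_graph' r ε hirr u
  obtain ⟨s, hs⟩ := graph_add_scalar r ε a hq hy
  have h2 := graph_mul r ε hy hy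
  obtain ⟨s2, hs2⟩ := graph_add_scalar r ε a hq h2
  simp only at hs hs2
  have hy' : y = s • (1 : Module.End K U) - u := eq_sub_of_add_eq' hs
  rw [hy'] at hs2
  refine ⟨s, s * s - s2, ?_⟩
  have : (2 : K) • (u * u) - (2 * s) • u + (s * s - s2) • (1 : Module.End K U)
      = (u * u + (s • (1 : Module.End K U) - u) * (s • (1 : Module.End K U) - u))
        - s2 • (1 : Module.End K U) := by
    simp only [sub_mul, mul_sub, smul_mul_assoc, mul_smul_comm, one_mul, mul_one]
    module
  rw [this, hs2, sub_self]

include hq hirr in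
theorem finrank_le_two' (h2K : (2 : K) ≠ 0) : Module.finrank K U ≤ 2 := by
  by_contra h
  push Not at h
  let b : Module.Basis (Fin (Module.finrank K U)) K U := Module.finBasis K U
  let u : Module.End K U := b.constr K (fun i => ((i : ℕ) : K) • b i)
  have hu : ∀ i, u (b i) = ((i : ℕ) : K) • b i := fun i => b.constr_basis K _ i
  obtain ⟨s, c, hsc⟩ := quadratic_identity' r ε a hq hirr u
  have key : ∀ i : Fin (Module.finrank K U),
      2 * ((i : ℕ) : K) * ((i : ℕ) : K) - 2 * s * ((i : ℕ) : K) + c = 0 := by
    intro i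
    have h1 := congrArg (fun f : Module.End K U => f (b i)) hsc
    simp only [LinearMap.add_apply, LinearMap.sub_apply, LinearMap.smul_apply,
      Module.End.mul_apply, Module.End.one_apply, LinearMap.zero_apply, hu, map_smul,
      smul_smul] at h1
    rw [← sub_smul, ← add_smul] at h1
    rcases smul_eq_zero.mp h1 with h0 | h0
    · rw [← h0]; ring
    · exact absurd h0 (b.ne_zero i)
  have k0 := key ⟨0, by omega⟩
  have k1 := key ⟨1, by omega⟩
  have k2 := key ⟨2, by omega⟩
  simp only [Nat.cast_zero, Nat.cast_one, Nat.cast_ofNat] at k0 k1 k2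
  have h4 : (2 : K) * 2 = 0 := by linear_combination k2 - 2 * k1 + k0
  exact mul_ne_zero h2K h2K h4

include hq in
/-- a non-scalar element has the expected trace and determinant. -/
theorem trace_det_of_nonscalar' (h2 : Module.finrank K U = 2) (g : G)
    (hg : ∀ c : K, r g ≠ c • (1 : Module.End K U)) :
    LinearMap.trace K U (r g) = a g ∧ LinearMap.det (r g) = ((ε g : Kˣ) : K) := by
  have hCH := LinearMap.aeval_self_charpoly (r g)
  rw [charpoly_of_finrank_two h2] at hCH
  simp only [map_add, map_sub, map_mul, aeval_X, aeval_C, Module.algebraMap_end_eq_smul_id,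
    pow_two] at hCH
  have hsub : (LinearMap.trace K U (r g) - a g) • r g
      + (((ε g : Kˣ) : K) - LinearMap.det (r g)) • (1 : Module.End K U) = 0 := by
    have h1 := hq g
    have : (LinearMap.trace K U (r g) - a g) • r g
        + (((ε g : Kˣ) : K) - LinearMap.det (r g)) • (1 : Module.End K U)
        = (r g * r g - a g • r g + ((ε g : Kˣ) : K) • (1 : Module.End K U))
          - (r g * r g - (LinearMap.trace K U (r g) • LinearMap.id) * r g
            + LinearMap.det (r g) • LinearMap.id) := by
      rw [smul_mul_assoc]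
      show _ = _ - (r g * r g - LinearMap.trace K U (r g) • ((1 : Module.End K U) * r g)
        + LinearMap.det (r g) • (1 : Module.End K U))
      rw [one_mul]
      module
    rw [this, h1, hCH, sub_self]
  have htr : LinearMap.trace K U (r g) = a g := by
    by_contra hne
    have hne' : LinearMap.trace K U (r g) - a g ≠ 0 := sub_ne_zero.mpr hne
    apply hg (-(LinearMap.trace K U (r g) - a g)⁻¹ * (((ε g : Kˣ) : K) - LinearMap.det (r g)))
    have h3 : (LinearMap.trace K U (r g) - a g) • r g
        = -((((ε g : Kˣ) : K) - LinearMap.det (r g)) • (1 : Module.End K U)) :=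
      eq_neg_of_add_eq_zero_left hsub
    calc r g = (LinearMap.trace K U (r g) - a g)⁻¹ • ((LinearMap.trace K U (r g) - a g) • r g) := by
          rw [smul_smul, inv_mul_cancel₀ hne', one_smul]
      _ = _ := by rw [h3, smul_neg, smul_smul, neg_mul, neg_smul]
  refine ⟨htr, ?_⟩
  rw [htr, sub_self, zero_smul, zero_add] at hsub
  rcases smul_eq_zero.mp hsub with h0 | h0
  · exact (sub_eq_zero.mp h0).symm
  · exact absurd h0 one_ne_zero

include hq hirr hd in
theorem trace_det_of_finrank_two' (h2 : Module.finrank K U = 2) (g : G) :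
    LinearMap.trace K U (r g) = a g ∧ LinearMap.det (r g) = ((ε g : Kˣ) : K) := by
  by_cases hg : ∀ c : K, r g ≠ c • (1 : Module.End K U)
  · exact trace_det_of_nonscalar' r ε a hq h2 g hg
  push Not at hg
  obtain ⟨c, hc⟩ := hg
  obtain ⟨h, hh⟩ := exists_nonscalar' r hirr hd
  have hinv : r g * r g⁻¹ = 1 := by rw [← map_mul, mul_inv_cancel, map_one]
  have hc0 : c ≠ 0 := by
    rintro rfl
    rw [hc, zero_smul, zero_mul] at hinv
    exact zero_ne_one hinv
  have hgh : ∀ c' : K, r (g * h) ≠ c' • (1 : Module.End K U) := by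
    intro c' hc'
    apply hh (c⁻¹ * c')
    rw [map_mul, hc, smul_mul_assoc, one_mul] at hc'
    rw [← smul_smul, ← hc', smul_smul, inv_mul_cancel₀ hc0, one_smul]
  obtain ⟨-, hdet1⟩ := trace_det_of_nonscalar' r ε a hq h2 (g * h) hgh
  obtain ⟨-, hdet2⟩ := trace_det_of_nonscalar' r ε a hq h2 h hh
  have hdetg : LinearMap.det (r g) = c ^ 2 := by
    rw [hc, LinearMap.det_smul, h2, map_one, mul_one]
  have hcc : c ^ 2 = ((ε g : Kˣ) : K) := by
    rw [map_mul, map_mul, hdet2, hdetg, map_mul, Units.val_mul] at hdet1
    exact mul_right_cancel₀ (Units.ne_zero _) hdet1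
  have hrel : c * c - a g * c + ((ε g : Kˣ) : K) = 0 := by
    have h1 := hq g
    rw [hc, smul_mul_assoc, mul_smul_comm, one_mul, smul_smul, smul_smul, ← sub_smul,
      ← add_smul] at h1
    rcases smul_eq_zero.mp h1 with h0 | h0
    · exact h0
    · exact absurd h0 one_ne_zero
  have ha : a g = 2 * c := by
    have : c * (2 * c - a g) = 0 := by rw [← hcc] at hrel; linear_combination hrel
    rcases mul_eq_zero.mp this with h0 | h0
    · exact absurd h0 hc0
    · exact (sub_eq_zero.mp h0).symm
  refine ⟨?_, by rw [hdetg, hcc]⟩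
  rw [hc, map_smul, LinearMap.trace_one, h2, ha, smul_eq_mul]
  push_cast
  ring

end Irreducible

/-! ### Minimal stable subspaces -/

section Minimal

variable {K : Type*} [Field K] {G : Type*} [Group G]
  {W : Type*} [AddCommGroup W] [Module K W]

/-- the restriction of a representation to a stable subspace. -/
def restrictHom (ρ : G →* Module.End K W) (U : Submodule K W)
    (hU : ∀ g, ∀ u ∈ U, ρ g u ∈ U) : G →* Module.End K U where
  toFun g := (ρ g).restrict (hU g)
  map_one' := by
    ext u
    simp
  map_mul' g h := by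
    ext u
    simp

theorem coe_restrictHom_apply (ρ : G →* Module.End K W) (U : Submodule K W)
    (hU : ∀ g, ∀ u ∈ U, ρ g u ∈ U) (g : G) (u : U) :
    ((restrictHom ρ U hU g u : U) : W) = ρ g (u : W) := rfl

theorem restrictHom_eq_one (ρ : G →* Module.End K W) (U : Submodule K W)
    (hU : ∀ g, ∀ u ∈ U, ρ g u ∈ U) {g : G} (hg : ρ g = 1) : restrictHom ρ U hU g = 1 := by
  ext u
  rw [coe_restrictHom_apply, hg]
  rfl

/-- a polynomial relation of degree two on `W` restricts to a stable subspace. -/
theorem restrictHom_quadratic (ρ : G →* Module.End K W) (U : Submodule K W)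
    (hU : ∀ g, ∀ u ∈ U, ρ g u ∈ U) {g : G} {a d : K}
    (h : ρ g * ρ g - a • ρ g + d • (1 : Module.End K W) = 0) :
    restrictHom ρ U hU g * restrictHom ρ U hU g - a • restrictHom ρ U hU g
      + d • (1 : Module.End K U) = 0 := by
  ext u
  have := congrArg (fun f : Module.End K W => f (u : W)) h
  simpa [coe_restrictHom_apply] using this

variable [FiniteDimensional K W] [Nontrivial W]

/-- a nonzero stable subspace on which the action is irreducible. -/
theorem exists_irreducible_stable (ρ : G →* Module.End K W) :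
    ∃ (U : Submodule K W) (hU : ∀ g, ∀ u ∈ U, ρ g u ∈ U), U ≠ ⊥ ∧
      ∀ W' : Submodule K U, (∀ g, ∀ x ∈ W', restrictHom ρ U hU g x ∈ W') → W' = ⊥ ∨ W' = ⊤ := by
  classical
  let P : Submodule K W → Prop := fun U => U ≠ ⊥ ∧ ∀ g, ∀ u ∈ U, ρ g u ∈ U
  have hex : ∃ n, ∃ U, P U ∧ Module.finrank K U = n :=
    ⟨_, ⊤, ⟨top_ne_bot, fun _ _ _ => trivial⟩, rfl⟩
  obtain ⟨U, ⟨hU0, hU⟩, hUn⟩ := Nat.find_spec hex
  have hmin : ∀ U', P U' → Module.finrank K U ≤ Module.finrank K U' := fun U' hU' => by
    rw [hUn]; exact Nat.find_min' hex ⟨U', hU', rfl⟩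
  refine ⟨U, hU, hU0, ?_⟩
  intro W' hW'
  by_cases h0 : W' = ⊥
  · left; exact h0
  right
  have hP : P (W'.map U.subtype) := by
    refine ⟨?_, ?_⟩
    · intro h
      apply h0
      rw [eq_bot_iff]
      intro x hx
      have hx' : U.subtype x ∈ W'.map U.subtype := ⟨x, hx, rfl⟩
      rw [h, Submodule.mem_bot] at hx'
      rw [Submodule.mem_bot]
      exact Subtype.ext hx'
    · rintro g _ ⟨x, hx, rfl⟩
      exact ⟨restrictHom ρ U hU g x, hW' g x hx, rfl⟩
  have h1 := hmin _ hP
  have h2 : Module.finrank K (W'.map U.subtype) = Module.finrank K W' :=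
    (LinearEquiv.finrank_eq
      (Submodule.equivMapOfInjective U.subtype U.injective_subtype W')).symm
  apply Submodule.eq_top_of_finrank_eq
  have h3 := Submodule.finrank_le W'
  omega

end Minimal

/-! ### Lines -/

section Line

variable {K : Type*} [Field K] {U : Type*} [AddCommGroup U] [Module K U]

/-- on a line every endomorphism is multiplication by its determinant. -/
theorem apply_eq_det_smul [Module.Finite K U] (h1 : Module.finrank K U = 1)
    (f : Module.End K U) (x : U) : f x = LinearMap.det f • x := by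
  let b : Module.Basis (Fin 1) K U := Module.finBasisOfFinrankEq K U h1
  have hdet : LinearMap.det f = b.repr (f (b 0)) 0 := by
    rw [← LinearMap.det_toMatrix b f, Matrix.det_fin_one, LinearMap.toMatrix_apply]
  have hx : ∀ y : U, y = b.repr y 0 • b 0 := by
    intro y
    conv_lhs => rw [← b.sum_repr y]
    rw [Fin.sum_univ_one]
  have hfb : f (b 0) = LinearMap.det f • b 0 := by
    rw [hdet]
    exact hx (f (b 0))
  rw [hx x, map_smul, hfb, smul_comm]

end Line

/-! ### Diagonal representations -/

section Diag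

variable {K : Type*} [Field K] {G : Type*} [Group G]

/-- the diagonal representation `χ₁ ⊕ χ₂`. -/
noncomputable def diagHom (χ₁ χ₂ : G →* Kˣ) : G →* GL (Fin 2) K :=
  MonoidHom.mk'
    (fun g => Matrix.GeneralLinearGroup.mkOfDetNeZero
      (Matrix.diagonal ![((χ₁ g : Kˣ) : K), ((χ₂ g : Kˣ) : K)])
      (by
        rw [Matrix.det_diagonal, Fin.prod_univ_two]
        exact mul_ne_zero (Units.ne_zero _) (Units.ne_zero _)))
    (by
      intro g h
      apply Units.ext
      show Matrix.diagonal ![((χ₁ (g * h) : Kˣ) : K), ((χ₂ (g * h) : Kˣ) : K)] =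
        Matrix.diagonal ![((χ₁ g : Kˣ) : K), ((χ₂ g : Kˣ) : K)] *
          Matrix.diagonal ![((χ₁ h : Kˣ) : K), ((χ₂ h : Kˣ) : K)]
      rw [Matrix.diagonal_mul_diagonal]
      congr 1
      funext i
      fin_cases i <;> simp [map_mul])

theorem coe_diagHom (χ₁ χ₂ : G →* Kˣ) (g : G) :
    (diagHom χ₁ χ₂ g : Matrix (Fin 2) (Fin 2) K) =
      Matrix.diagonal ![((χ₁ g : Kˣ) : K), ((χ₂ g : Kˣ) : K)] := rfl

theorem trace_diagHom (χ₁ χ₂ : G →* Kˣ) (g : G) :
    Matrix.trace (diagHom χ₁ χ₂ g : Matrix (Fin 2) (Fin 2) K) =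
      ((χ₁ g : Kˣ) : K) + ((χ₂ g : Kˣ) : K) := by
  rw [coe_diagHom, Matrix.trace_fin_two]
  simp

theorem det_diagHom (χ₁ χ₂ : G →* Kˣ) (g : G) :
    Matrix.det (diagHom χ₁ χ₂ g : Matrix (Fin 2) (Fin 2) K) =
      ((χ₁ g : Kˣ) : K) * ((χ₂ g : Kˣ) : K) := by
  rw [coe_diagHom, Matrix.det_diagonal, Fin.prod_univ_two]
  simp

theorem diagHom_eq_one (χ₁ χ₂ : G →* Kˣ) {g : G} (h₁ : χ₁ g = 1) (h₂ : χ₂ g = 1) :
    diagHom χ₁ χ₂ g = 1 := by
  apply Units.ext
  rw [coe_diagHom, h₁, h₂]
  ext i j
  fin_cases i <;> fin_cases j <;> simp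

theorem weakSS_diagHom (χ₁ χ₂ : G →* Kˣ) : WeakSS (diagHom χ₁ χ₂) := by
  intro v _ _
  by_cases hv1 : v 1 = 0
  · refine ⟨![0, 1], ?_, fun g => ⟨((χ₂ g : Kˣ) : K), ?_⟩⟩
    · intro c hc
      have := congrFun hc 1
      simp [hv1] at this
    · rw [coe_diagHom]
      ext i
      fin_cases i <;> simp [Matrix.mulVec_diagonal]
  · refine ⟨![1, 0], ?_, fun g => ⟨((χ₁ g : Kˣ) : K), ?_⟩⟩
    · intro c hc
      have h1 := congrFun hc 1
      have h0 := congrFun hc 0
      simp only [Matrix.cons_val_one, Matrix.cons_val_zero, Pi.smul_apply, smul_eq_mul] at h1 h0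
      rcases mul_eq_zero.mp h1.symm with hc0 | hc0
      · rw [hc0, zero_mul] at h0
        exact one_ne_zero h0
      · exact hv1 hc0
    · rw [coe_diagHom]
      ext i
      fin_cases i <;> simp [Matrix.mulVec_diagonal]

end Diag

/-! ### Planes: the matrix form of a representation -/

section Mat

variable {K : Type*} [Field K] {G : Type*} [Group G] {U : Type*} [AddCommGroup U] [Module K U]

/-- the matrix form of a representation on a plane with a basis. -/
noncomputable def matHom (b : Module.Basis (Fin 2) K U) (r : G →* Module.End K U) :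
    G →* GL (Fin 2) K :=
  (Units.map ((LinearMap.toMatrixAlgEquiv b : Module.End K U ≃ₐ[K] Matrix (Fin 2) (Fin 2) K) :
    Module.End K U →* Matrix (Fin 2) (Fin 2) K)).comp r.toHomUnits

theorem coe_matHom (b : Module.Basis (Fin 2) K U) (r : G →* Module.End K U) (g : G) :
    (matHom b r g : Matrix (Fin 2) (Fin 2) K) = LinearMap.toMatrix b b (r g) := rfl

theorem trace_matHom (b : Module.Basis (Fin 2) K U) (r : G →* Module.End K U) (g : G) :
    Matrix.trace (matHom b r g : Matrix (Fin 2) (Fin 2) K) = LinearMap.trace K U (r g) := by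
  rw [coe_matHom, LinearMap.trace_eq_matrix_trace K b]

theorem det_matHom (b : Module.Basis (Fin 2) K U) (r : G →* Module.End K U) (g : G) :
    Matrix.det (matHom b r g : Matrix (Fin 2) (Fin 2) K) = LinearMap.det (r g) := by
  rw [coe_matHom, LinearMap.det_toMatrix]

theorem matHom_eq_one (b : Module.Basis (Fin 2) K U) (r : G →* Module.End K U) {g : G}
    (hg : r g = 1) : matHom b r g = 1 := by
  apply Units.ext
  rw [coe_matHom, hg]
  exact LinearMap.toMatrix_one b

/-- a common eigenvector of the matrix form gives a stable line. -/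
theorem apply_eq_smul_of_mulVec (b : Module.Basis (Fin 2) K U) (r : G →* Module.End K U)
    (v : Fin 2 → K) {g : G} {c : K}
    (h : (matHom b r g : Matrix (Fin 2) (Fin 2) K).mulVec v = c • v) :
    r g (b.equivFun.symm v) = c • b.equivFun.symm v := by
  apply b.equivFun.injective
  have h1 := LinearMap.toMatrix_mulVec_repr b b (r g) (b.equivFun.symm v)
  have h2 : (b.repr (b.equivFun.symm v) : Fin 2 → K) = v := by
    have := b.equivFun.apply_symm_apply v
    exact this
  rw [h2, ← coe_matHom, h] at h1
  rw [map_smul, LinearEquiv.apply_symm_apply]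
  exact h1.symm

end Mat

/-! ### The main theorem -/

section Main

open Module

/-- **RES-EXTRACT, algebraic core.**  A two-dimensional representation with determinant `δ` and
the expected traces from a representation all of whose elements satisfy a quadratic relation
with constant term `δ`. -/
theorem exists_gl2_of_quadratic {K : Type*} [Field K] [IsAlgClosed K] (h2K : (2 : K) ≠ 0)
    {G : Type*} [Group G] {W : Type*} [AddCommGroup W] [Module K W] [FiniteDimensional K W]
    [Nontrivial W] (ρ : G →* Module.End K W) (δ : G →* Kˣ)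
    (hq : ∀ g, ∃ a : K, ρ g * ρ g - a • ρ g + ((δ g : Kˣ) : K) • (1 : Module.End K W) = 0) :
    ∃ r : G →* GL (Fin 2) K,
      (∀ g (a : K), ρ g * ρ g - a • ρ g + ((δ g : Kˣ) : K) • (1 : Module.End K W) = 0 →
        Matrix.trace (r g : Matrix (Fin 2) (Fin 2) K) = a) ∧
      (∀ g, Matrix.det (r g : Matrix (Fin 2) (Fin 2) K) = ((δ g : Kˣ) : K)) ∧
      (∀ g, ρ g = 1 → δ g = 1 → r g = 1) ∧ WeakSS r := by
  classical
  obtain ⟨U, hU, hU0, hirr⟩ := exists_irreducible_stable ρ
  haveI : Nontrivial U := Submodule.nontrivial_iff_ne_bot.mpr hU0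
  set rU := restrictHom ρ U hU with hrU
  choose a ha using hq
  have hqU : ∀ g, rU g * rU g - a g • rU g + ((δ g : Kˣ) : K) • (1 : Module.End K U) = 0 :=
    fun g => restrictHom_quadratic ρ U hU (ha g)
  by_cases hd : 2 ≤ finrank K U
  · have h2 : finrank K U = 2 := le_antisymm (finrank_le_two' rU δ a hqU hirr h2K) hd
    let b : Basis (Fin 2) K U := finBasisOfFinrankEq K U h2
    refine ⟨matHom b rU, ?_, ?_, ?_, ?_⟩
    · intro g a₀ h₀
      have hq' : ∀ g', rU g' * rU g' - (Function.update a g a₀) g' • rU g'
          + ((δ g' : Kˣ) : K) • (1 : Module.End K U) = 0 := by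
        intro g'
        by_cases hg' : g' = g
        · subst hg'
          rw [Function.update_self]
          exact restrictHom_quadratic ρ U hU h₀
        · rw [Function.update_of_ne hg']
          exact hqU g'
      obtain ⟨ht, -⟩ := trace_det_of_finrank_two' rU δ _ hq' hirr hd h2 g
      rw [Function.update_self] at ht
      rw [trace_matHom, ht]
    · intro g
      rw [det_matHom]
      exact (trace_det_of_finrank_two' rU δ a hqU hirr hd h2 g).2
    · intro g hg _
      exact matHom_eq_one b rU (restrictHom_eq_one ρ U hU hg)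
    · intro v hv hev
      exfalso
      set u : U := b.equivFun.symm v with hu
      have hu0 : u ≠ 0 := by
        intro h0
        apply hv
        have := congrArg b.equivFun h0
        rwa [hu, LinearEquiv.apply_symm_apply, map_zero] at this
      have hst : ∀ g, ∀ x ∈ Submodule.span K {u}, rU g x ∈ Submodule.span K {u} := by
        intro g x hx
        obtain ⟨c, hc⟩ := hev g
        obtain ⟨t, rfl⟩ := Submodule.mem_span_singleton.mp hx
        rw [map_smul, apply_eq_smul_of_mulVec b rU v hc]
        exact Submodule.smul_mem _ _ (Submodule.smul_mem _ _ (Submodule.mem_span_singleton_self u))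
      rcases hirr _ hst with h | h
      · have : u ∈ Submodule.span K {u} := Submodule.mem_span_singleton_self u
        rw [h, Submodule.mem_bot] at this
        exact hu0 this
      · have h1 : finrank K (Submodule.span K {u}) = 1 := finrank_span_singleton hu0
        rw [h, finrank_top] at h1
        omega
  · have h1 : finrank K U = 1 := by
      have : 0 < finrank K U := finrank_pos
      omega
    let ψ : G →* Kˣ := ((LinearMap.det : Module.End K U →* K).comp rU).toHomUnits
    have hψ : ∀ g (x : U), rU g x = ((ψ g : Kˣ) : K) • x :=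
      fun g x => apply_eq_det_smul h1 (rU g) x
    obtain ⟨x, hx⟩ := exists_ne (0 : U)
    -- the relation satisfied by `ψ`
    have hrel : ∀ g (a₀ : K),
        ρ g * ρ g - a₀ • ρ g + ((δ g : Kˣ) : K) • (1 : Module.End K W) = 0 →
        ((ψ g : Kˣ) : K) * ((ψ g : Kˣ) : K) - a₀ * ((ψ g : Kˣ) : K) + ((δ g : Kˣ) : K) = 0 := by
      intro g a₀ h₀
      have h3 := congrArg (fun f : Module.End K U => f x) (restrictHom_quadratic ρ U hU h₀)
      simp only [LinearMap.add_apply, LinearMap.sub_apply, LinearMap.smul_apply,
        Module.End.mul_apply, Module.End.one_apply, LinearMap.zero_apply] at h3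
      rw [← hrU, hψ g x, map_smul, hψ g x, smul_smul, smul_smul, ← sub_smul, ← add_smul] at h3
      rcases smul_eq_zero.mp h3 with h0 | h0
      · exact h0
      · exact absurd h0 hx
    refine ⟨diagHom ψ (δ / ψ), ?_, ?_, ?_, weakSS_diagHom _ _⟩
    · intro g a₀ h₀
      rw [trace_diagHom, MonoidHom.div_apply, Units.val_div_eq_div_val]
      have hne : ((ψ g : Kˣ) : K) ≠ 0 := Units.ne_zero _
      have := hrel g a₀ h₀
      field_simp
      linear_combination this
    · intro g
      rw [det_diagHom, MonoidHom.div_apply, Units.val_div_eq_div_val]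
      have hne : ((ψ g : Kˣ) : K) ≠ 0 := Units.ne_zero _
      field_simp
    · intro g hg hδ
      have hψ1 : ψ g = 1 := by
        apply Units.ext
        show LinearMap.det (rU g) = 1
        rw [hrU, restrictHom_eq_one ρ U hU hg, map_one]
      exact diagHom_eq_one _ _ hψ1 (by rw [MonoidHom.div_apply, hδ, hψ1, div_one])

end Main

end Fermat.Agent.S48x.Extract
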