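/-
P-S48 (Deligne–Serre), RES-EXTRACT, Galois wrapper (helper78).

`Γ = Gal(ℚ̄/ℚ)` acts with finite level on a finite-dimensional `k₀`-space `V ≠ 0` (`k₀` any field),
`δ : Γ →* k₀ˣ` is a character of finite level, and every Frobenius element `φ` at every prime
`p ∉ S` (`S` finite) satisfies `φ² - s_p φ + δ(φ) = 0` on `V`.  Then, for every algebraically
closed field `K` over `k₀` in which `2` is invertible, there is `r : Γ →* GL₂(K)` of finite
level, weakly semisimple, with `trace r(φ) = s_p`, `det r(φ) = δ(φ)` for these Frobenius elements,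
`det r = δ`, all traces among the `s_p`, and trivial wherever both the action on `V` and `δ` are
trivial (so unramified where `V` and `δ` are).

* `exists_frobenius_eq₂` : every `σ ∈ Γ` agrees with a Frobenius element at a prime outside `S`
  under two homomorphisms of finite level (Chebotarev, `Lib/CFT/Cheb/Main.exists_frobenius_lift`);
* `exists_residual_rep` : the statement above (`Extract/Quadratic.exists_gl2_of_quadratic`).
-/
import Fermat.Agent.S48x.Extract.Quadratic
import Fermat.Agent.Lib.CFT.Cheb.Main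

set_option autoImplicit false
set_option linter.unusedSectionVars false
set_option linter.style.haveILetI false

namespace Fermat.Agent.S48x.Extract

open scoped TensorProduct

/-- `Gal(ℚ̄/ℚ)`. -/
local notation "Γ" => (AlgebraicClosure ℚ ≃ₐ[ℚ] AlgebraicClosure ℚ)

local notation "Qb" => AlgebraicClosure ℚ

/-! ### Chebotarev: every element is a Frobenius element modulo a finite level -/

section Frobenius

variable {M M' : Type} [Monoid M] [Monoid M']

/-- `ℚ̄ / ℚ` is normal (for the `ℚ`-algebra structure of a division ring of characteristic `0`). -/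
theorem normal_Qb : @Normal ℚ Qb _ _ DivisionRing.toRatAlgebra := by
  have h : (DivisionRing.toRatAlgebra : Algebra ℚ Qb) = AlgebraicClosure.instAlgebra ℚ :=
    Subsingleton.elim _ _
  rw [h]
  infer_instance

/-- a homomorphism of finite level takes the same value on two automorphisms which agree on the
level field. -/
theorem apply_eq_of_agree (ρ : Γ →* M) {L : IntermediateField ℚ Qb}
    (hL : ∀ σ : Γ, (∀ x ∈ L, σ x = x) → ρ σ = 1) {σ φ : Γ} (h : ∀ x ∈ L, φ x = σ x) :
    ρ φ = ρ σ := by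
  have h1 : ρ (σ⁻¹ * φ) = 1 := by
    apply hL
    intro x hx
    rw [AlgEquiv.mul_apply, h x hx]
    exact AlgEquiv.symm_apply_apply σ x
  calc ρ φ = ρ (σ * (σ⁻¹ * φ)) := by rw [mul_inv_cancel_left]
    _ = ρ σ := by rw [map_mul, h1, mul_one]

/-- **Every element of `Γ` is a Frobenius element outside `S`, modulo two finite levels.** -/
theorem exists_frobenius_eq₂ (ρ : Γ →* M) (hρ : GaloisFactorsThroughFiniteLevel ρ)
    (δ : Γ →* M') (hδ : GaloisFactorsThroughFiniteLevel δ) (σ : Γ) (S : Finset ℕ) :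
    ∃ p, p.Prime ∧ p ∉ S ∧ ∃ A : ValuationSubring Qb, A.LiesOverPrime p ∧
      ∃ φ : Γ, A.IsFrobeniusAt φ p ∧ ρ φ = ρ σ ∧ δ φ = δ σ := by
  obtain ⟨L₁, hfd₁, hL₁⟩ := hρ
  obtain ⟨L₂, hfd₂, hL₂⟩ := hδ
  let L : IntermediateField ℚ Qb := L₁ ⊔ L₂
  haveI : FiniteDimensional ℚ L := IntermediateField.finiteDimensional_sup L₁ L₂
  haveI : Normal ℚ Qb := normal_Qb
  let E : IntermediateField ℚ Qb := IntermediateField.normalClosure ℚ L Qb
  have hfd : FiniteDimensional ℚ E := by
    have h0 := _root_.normalClosure.is_finiteDimensional ℚ L Qb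
    exact h0
  have hnormal : Normal ℚ E := by
    have h0 := _root_.normalClosure.normal ℚ L Qb
    exact h0
  have hgal : IsGalois ℚ E := ⟨⟩
  have hLE : L ≤ E := IntermediateField.le_normalClosure L
  obtain ⟨p, hp, hpS, A, hA, φ, hφ, hφσ⟩ :=
    Fermat.Agent.Lib.CFT.Cheb.exists_frobenius_lift E σ S
  refine ⟨p, hp, hpS, A, hA, φ, hφ, ?_, ?_⟩
  · exact apply_eq_of_agree ρ hL₁ fun x hx => hφσ x (hLE (le_sup_left (a := L₁) (b := L₂) hx))
  · exact apply_eq_of_agree δ hL₂ fun x hx => hφσ x (hLE (le_sup_right (a := L₁) (b := L₂) hx))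

/-- one homomorphism. -/
theorem exists_frobenius_eq (ρ : Γ →* M) (hρ : GaloisFactorsThroughFiniteLevel ρ)
    (σ : Γ) (S : Finset ℕ) :
    ∃ p, p.Prime ∧ p ∉ S ∧ ∃ A : ValuationSubring Qb, A.LiesOverPrime p ∧
      ∃ φ : Γ, A.IsFrobeniusAt φ p ∧ ρ φ = ρ σ := by
  obtain ⟨p, hp, hpS, A, hA, φ, hφ, h1, -⟩ := exists_frobenius_eq₂ ρ hρ ρ hρ σ S
  exact ⟨p, hp, hpS, A, hA, φ, hφ, h1⟩

end Frobenius

/-! ### Base change of the action -/

section BaseChange

variable {k₀ : Type} [Field k₀] (K : Type) [Field K] [Algebra k₀ K]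
  {V : Type} [AddCommGroup V] [Module k₀ V]

/-- the base change of a representation. -/
noncomputable def baseChangeHom {G : Type*} [Group G] (ρ : G →* Module.End k₀ V) :
    G →* Module.End K (K ⊗[k₀] V) where
  toFun σ := (ρ σ).baseChange K
  map_one' := by rw [map_one, LinearMap.baseChange_one]
  map_mul' σ τ := by rw [map_mul, LinearMap.baseChange_mul]

theorem baseChangeHom_apply {G : Type*} [Group G] (ρ : G →* Module.End k₀ V) (g : G) :
    baseChangeHom K ρ g = (ρ g).baseChange K := rfl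

theorem baseChangeHom_eq_one {G : Type*} [Group G] (ρ : G →* Module.End k₀ V) {g : G}
    (hg : ρ g = 1) : baseChangeHom K ρ g = 1 := by
  rw [baseChangeHom_apply, hg, LinearMap.baseChange_one]

/-- a quadratic relation base changes. -/
theorem baseChangeHom_quadratic {G : Type*} [Group G] (ρ : G →* Module.End k₀ V) {g : G}
    {a d : k₀} (h : ρ g * ρ g - a • ρ g + d • (1 : Module.End k₀ V) = 0) :
    baseChangeHom K ρ g * baseChangeHom K ρ g - algebraMap k₀ K a • baseChangeHom K ρ g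
      + algebraMap k₀ K d • (1 : Module.End K (K ⊗[k₀] V)) = 0 := by
  have h1 := congrArg (LinearMap.baseChange K) h
  rw [LinearMap.baseChange_add, LinearMap.baseChange_sub, LinearMap.baseChange_mul,
    LinearMap.baseChange_smul, LinearMap.baseChange_smul, LinearMap.baseChange_one,
    LinearMap.baseChange_zero] at h1
  rw [baseChangeHom_apply, algebraMap_smul, algebraMap_smul]
  exact h1

/-- the character `δ` with values in `K`. -/
noncomputable def unitsHom {G : Type*} [Group G] (δ : G →* k₀ˣ) : G →* Kˣ :=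
  (Units.map (algebraMap k₀ K : k₀ →* K)).comp δ

theorem coe_unitsHom {G : Type*} [Group G] (δ : G →* k₀ˣ) (g : G) :
    ((unitsHom K δ g : Kˣ) : K) = algebraMap k₀ K ((δ g : k₀ˣ) : k₀) := rfl

theorem unitsHom_eq_one {G : Type*} [Group G] (δ : G →* k₀ˣ) {g : G} (hg : δ g = 1) :
    unitsHom K δ g = 1 := by
  rw [unitsHom, MonoidHom.comp_apply, hg, map_one]

end BaseChange

/-! ### The extraction -/

section Main

open Module

/-- **RES-EXTRACT.** -/
theorem exists_residual_rep {k₀ : Type} [Field k₀] (K : Type) [Field K] [Algebra k₀ K]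
    [IsAlgClosed K] (h2 : (2 : K) ≠ 0)
    {V : Type} [AddCommGroup V] [Module k₀ V] [FiniteDimensional k₀ V] [Nontrivial V]
    (gal : Γ →* Module.End k₀ V) (hgal : GaloisFactorsThroughFiniteLevel gal)
    (δ : Γ →* k₀ˣ) (hδ : GaloisFactorsThroughFiniteLevel δ) (S : Finset ℕ) (s : ℕ → k₀)
    (hfrob : ∀ p, p.Prime → p ∉ S → ∀ A : ValuationSubring Qb, A.LiesOverPrime p →
      ∀ φ : Γ, A.IsFrobeniusAt φ p →
        gal φ * gal φ - s p • gal φ + ((δ φ : k₀ˣ) : k₀) • (1 : Module.End k₀ V) = 0) :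
    ∃ r : Γ →* GL (Fin 2) K,
      GaloisFactorsThroughFiniteLevel r ∧ WeakSS r ∧
      (∀ p, p.Prime → p ∉ S → ∀ A : ValuationSubring Qb, A.LiesOverPrime p →
        ∀ φ : Γ, A.IsFrobeniusAt φ p →
          Matrix.trace (r φ : Matrix (Fin 2) (Fin 2) K) = algebraMap k₀ K (s p) ∧
          Matrix.det (r φ : Matrix (Fin 2) (Fin 2) K) = algebraMap k₀ K ((δ φ : k₀ˣ) : k₀)) ∧
      (∀ g, Matrix.det (r g : Matrix (Fin 2) (Fin 2) K) = algebraMap k₀ K ((δ g : k₀ˣ) : k₀)) ∧
      (∀ g, ∃ p, p.Prime ∧ p ∉ S ∧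
        Matrix.trace (r g : Matrix (Fin 2) (Fin 2) K) = algebraMap k₀ K (s p)) ∧
      (∀ g, gal g = 1 → δ g = 1 → r g = 1) := by
  -- every element satisfies a quadratic relation with some `s p`
  have hall : ∀ g : Γ, ∃ p, p.Prime ∧ p ∉ S ∧
      gal g * gal g - s p • gal g + ((δ g : k₀ˣ) : k₀) • (1 : Module.End k₀ V) = 0 := by
    intro g
    obtain ⟨p, hp, hpS, A, hA, φ, hφ, h1, h2'⟩ := exists_frobenius_eq₂ gal hgal δ hδ g S
    refine ⟨p, hp, hpS, ?_⟩
    have := hfrob p hp hpS A hA φ hφ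
    rwa [h1, h2'] at this
  haveI : Nontrivial (K ⊗[k₀] V) := by
    apply Module.nontrivial_of_finrank_pos (R := K)
    rw [Module.finrank_baseChange]
    exact Module.finrank_pos
  obtain ⟨r, htr, hdet, hone, hss⟩ := exists_gl2_of_quadratic h2 (baseChangeHom K gal)
    (unitsHom K δ) (fun g => by
      obtain ⟨p, -, -, hrel⟩ := hall g
      exact ⟨algebraMap k₀ K (s p), baseChangeHom_quadratic K gal hrel⟩)
  have hone' : ∀ g, gal g = 1 → δ g = 1 → r g = 1 := fun g hg hd =>
    hone g (baseChangeHom_eq_one K gal hg) (unitsHom_eq_one K δ hd)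
  refine ⟨r, ?_, hss, ?_, ?_, ?_, hone'⟩
  · obtain ⟨L₁, hfd₁, hL₁⟩ := hgal
    obtain ⟨L₂, hfd₂, hL₂⟩ := hδ
    refine ⟨L₁ ⊔ L₂, IntermediateField.finiteDimensional_sup L₁ L₂, fun σ hσ => ?_⟩
    exact hone' σ (hL₁ σ fun x hx => hσ x (le_sup_left (a := L₁) (b := L₂) hx))
      (hL₂ σ fun x hx => hσ x (le_sup_right (a := L₁) (b := L₂) hx))
  · intro p hp hpS A hA φ hφ
    refine ⟨htr φ _ (baseChangeHom_quadratic K gal (hfrob p hp hpS A hA φ hφ)), ?_⟩
    rw [hdet, coe_unitsHom]
  · intro g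
    rw [hdet, coe_unitsHom]
  · intro g
    obtain ⟨p, hp, hpS, hrel⟩ := hall g
    exact ⟨p, hp, hpS, htr g _ (baseChangeHom_quadratic K gal hrel)⟩

end Main

end Fermat.Agent.S48x.Extract
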