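/-
P-S48 (Deligne–Serre), RES-EXTRACT (helper78): the co-eigenspace `W / 𝔪 W` of a finite module.

`R` a commutative ring, `W` an `R`-module which is finite as a set, `𝔪` a prime ideal containing
the annihilator of `W`.  Then
* `finite_quotient_of_annihilator_le` : `R ⧸ 𝔪` is finite;
* `isMaximal_of_annihilator_le` : `𝔪` is maximal;
* `nontrivial_quotient_smul_top` : `W ⧸ 𝔪 W ≠ 0` (Nakayama);
* `quotEnd 𝔪 : Module.End R W →+* Module.End (R ⧸ 𝔪) (W ⧸ 𝔪 W)` : the induced endomorphisms, with
  `quotEnd_smul_one` : the scalar `r` induces the scalar `[r]`.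
-/
import Mathlib

set_option autoImplicit false
set_option linter.unusedSectionVars false
set_option linter.style.haveILetI false

namespace Fermat.Agent.S48x.Extract

open Submodule

section Eigen

variable {R : Type*} [CommRing R] {W : Type*} [AddCommGroup W] [Module R W] (m : Ideal R)

/-- `R ⧸ Ann W` is finite when `W` is. -/
theorem finite_quotient_annihilator [Finite W] : Finite (R ⧸ Module.annihilator R W) := by
  let f : R ⧸ Module.annihilator R W → (W → W) := fun c =>
    Quotient.liftOn' c (fun r w => r • w) (by
      intro a b hab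
      funext w
      have h1 : a - b ∈ Module.annihilator R W := by
        have := (Submodule.quotientRel_def (Module.annihilator R W)).mp hab
        exact this
      have h2 := Module.mem_annihilator.mp h1 w
      rw [sub_smul, sub_eq_zero] at h2
      exact h2)
  have hf : Function.Injective f := by
    intro c d hcd
    obtain ⟨a, rfl⟩ := Ideal.Quotient.mk_surjective c
    obtain ⟨b, rfl⟩ := Ideal.Quotient.mk_surjective d
    rw [Ideal.Quotient.eq, Module.mem_annihilator]
    intro w
    have h1 : a • w = b • w := congrFun hcd w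
    rw [sub_smul, h1, sub_self]
  exact Finite.of_injective f hf

theorem finite_quotient_of_annihilator_le [Finite W] (h : Module.annihilator R W ≤ m) :
    Finite (R ⧸ m) := by
  haveI := finite_quotient_annihilator (R := R) (W := W)
  exact Finite.of_surjective (Ideal.Quotient.factor h) (Ideal.Quotient.factor_surjective h)

theorem isMaximal_of_annihilator_le [Finite W] [m.IsPrime] (h : Module.annihilator R W ≤ m) :
    m.IsMaximal := by
  haveI := finite_quotient_of_annihilator_le m h
  exact Ideal.Quotient.maximal_of_isField m (Finite.isField_of_domain (R ⧸ m))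

/-- Nakayama: `W ≠ 𝔪 W`. -/
theorem nontrivial_quotient_smul_top [Finite W] (hm : m ≠ ⊤) (h : Module.annihilator R W ≤ m) :
    Nontrivial (W ⧸ m • (⊤ : Submodule R W)) := by
  rw [Submodule.Quotient.nontrivial_iff]
  intro htop
  have hfg : (⊤ : Submodule R W).FG := Module.Finite.fg_top
  obtain ⟨r, hr1, hr⟩ := Submodule.exists_sub_one_mem_and_smul_eq_zero_of_fg_of_le_smul m
    (⊤ : Submodule R W) hfg (by rw [htop])
  have hrm : r ∈ m := h (Module.mem_annihilator.mpr fun w => hr w trivial)
  apply hm
  rw [Ideal.eq_top_iff_one]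
  have : (1 : R) = r - (r - 1) := by ring
  rw [this]
  exact m.sub_mem hrm hr1

/-- The endomorphism of `W ⧸ 𝔪 W` induced by an endomorphism of `W`. -/
def quotEndFun (g : Module.End R W) :
    Module.End (R ⧸ m) (W ⧸ m • (⊤ : Submodule R W)) where
  toFun := mapQ _ _ g (smul_top_le_comap_smul_top m g)
  map_add' := map_add _
  map_smul' c x := by
    obtain ⟨r, rfl⟩ := Ideal.Quotient.mk_surjective c
    obtain ⟨w, rfl⟩ := Submodule.Quotient.mk_surjective _ x
    rw [RingHom.id_apply, Module.Quotient.mk_smul_mk, mapQ_apply, mapQ_apply, map_smul,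
      Module.Quotient.mk_smul_mk]

theorem quotEndFun_mk (g : Module.End R W) (w : W) :
    quotEndFun m g (Submodule.Quotient.mk w) = Submodule.Quotient.mk (g w) := rfl

/-- `Module.End R W →+* Module.End (R ⧸ 𝔪) (W ⧸ 𝔪 W)`. -/
def quotEnd : Module.End R W →+* Module.End (R ⧸ m) (W ⧸ m • (⊤ : Submodule R W)) where
  toFun := quotEndFun m
  map_one' := by
    refine LinearMap.ext fun x => ?_
    obtain ⟨w, rfl⟩ := Submodule.Quotient.mk_surjective _ x
    rw [quotEndFun_mk, Module.End.one_apply, Module.End.one_apply]
  map_mul' f g := by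
    refine LinearMap.ext fun x => ?_
    obtain ⟨w, rfl⟩ := Submodule.Quotient.mk_surjective _ x
    rw [quotEndFun_mk, Module.End.mul_apply, Module.End.mul_apply, quotEndFun_mk, quotEndFun_mk]
  map_zero' := by
    refine LinearMap.ext fun x => ?_
    obtain ⟨w, rfl⟩ := Submodule.Quotient.mk_surjective _ x
    rw [quotEndFun_mk, LinearMap.zero_apply, LinearMap.zero_apply, Submodule.Quotient.mk_zero]
  map_add' f g := by
    refine LinearMap.ext fun x => ?_
    obtain ⟨w, rfl⟩ := Submodule.Quotient.mk_surjective _ x
    rw [quotEndFun_mk, LinearMap.add_apply, LinearMap.add_apply, quotEndFun_mk, quotEndFun_mk,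
      Submodule.Quotient.mk_add]

theorem quotEnd_mk (g : Module.End R W) (w : W) :
    quotEnd m g (Submodule.Quotient.mk w) = Submodule.Quotient.mk (g w) := rfl

theorem quotEnd_smul (r : R) (g : Module.End R W) :
    quotEnd m (r • g) = Ideal.Quotient.mk m r • quotEnd m g := by
  refine LinearMap.ext fun x => ?_
  obtain ⟨w, rfl⟩ := Submodule.Quotient.mk_surjective _ x
  rw [LinearMap.smul_apply, quotEnd_mk, quotEnd_mk, LinearMap.smul_apply,
    Module.Quotient.mk_smul_mk]

theorem quotEnd_eq_one {g : Module.End R W} (hg : g = 1) : quotEnd m g = 1 := by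
  rw [hg, map_one]

end Eigen

end Fermat.Agent.S48x.Extract
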