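/-
P-S48 (Deligne–Serre), RES-EXTRACT (helper78): from a finite Hecke–Galois module to a residual
representation (STEPS 3–4 of DS2-top, note 1010 §2).

ABSTRACT FORM (`exists_rep_of_finite_module`).  `TT` a commutative ring acting on a finite abelian
group `W` (`hecke`), `Γ = Gal(ℚ̄/ℚ)` acting on `W` with finite level, commuting with `TT`;
`θ : TT →+* k` a ring homomorphism to a field killing the annihilator of `W`.  Then `𝔪 = ker θ` is a
maximal ideal with finite residue field `k₀ = TT ⧸ 𝔪 ↪ k`, `V = W ⧸ 𝔪 W ≠ 0` (Nakayama) is a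
`k₀[Γ]`-module, and if every Frobenius element `φ` at `p ∉ S` satisfies
`φ² - T_p φ + u_p = 0` on `W`, with `δ(φ) = [u_p]` for a character `δ : Γ →* k₀ˣ` of finite level,
then `Extract/Galois.exists_residual_rep` gives `r : Γ →* GL₂(K)` (`K ⊇ k` algebraically closed,
`2 ≠ 0`) of finite level, weakly semisimple, with `trace r(φ) = θ(T_p)`, `det r(φ) = θ(u_p)`.

CONCRETE FORM (`exists_rep_of_torsionHeckeData1`): for `D : DS2.TorsionHeckeData1 H ℓ S` and
`θ : D.TT →+* k`, `char k = ℓ ≠ 2`: `W = D.Mod (1 + c₀)` (`faithful` gives `Ann W ⊆ ℓ TT ⊆ ker θ`),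
`δ = χ_ℓ · [⟨χ_M^{±1}⟩]` (`Extract/CycloMod`), `T_p = D.Tel p`, `u_p = p ⟨p⟩^{±1}`.
-/
import Fermat.Agent.S48x.Extract.Galois
import Fermat.Agent.S48x.Extract.CycloMod
import Fermat.Agent.S48x.Extract.Eigen
import Fermat.Agent.S48x.DS2.Contract

set_option autoImplicit false
set_option linter.unusedSectionVars false
set_option linter.style.haveILetI false

namespace Fermat.Agent.S48x.Extract

open Fermat.Agent.S48x.DS2

local notation "Γ" => (AlgebraicClosure ℚ ≃ₐ[ℚ] AlgebraicClosure ℚ)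

local notation "Qb" => AlgebraicClosure ℚ

/-! ### Additive endomorphisms commuting with the scalars -/

section Lin

variable {TT : Type} [CommRing TT] {W : Type} [AddCommGroup W] [Module TT W]

/-- an additive endomorphism commuting with the scalars, as a linear endomorphism. -/
def linOfCommute (g : AddMonoid.End W) (hg : ∀ (t : TT) (w : W), g (t • w) = t • g w) :
    Module.End TT W where
  toFun := g
  map_add' := map_add g
  map_smul' := hg

theorem linOfCommute_apply (g : AddMonoid.End W) (hg : ∀ (t : TT) (w : W), g (t • w) = t • g w)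
    (w : W) : linOfCommute g hg w = g w := rfl

/-- a group acting by additive endomorphisms commuting with the scalars acts linearly. -/
def linHom {G : Type*} [Group G] (gal : G →* AddMonoid.End W)
    (hgal : ∀ (σ : G) (t : TT) (w : W), gal σ (t • w) = t • gal σ w) : G →* Module.End TT W where
  toFun σ := linOfCommute (gal σ) (hgal σ)
  map_one' := by
    refine LinearMap.ext fun w => ?_
    rw [linOfCommute_apply, map_one]
    rfl
  map_mul' σ τ := by
    refine LinearMap.ext fun w => ?_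
    rw [linOfCommute_apply, map_mul]
    rfl

theorem linHom_apply {G : Type*} [Group G] (gal : G →* AddMonoid.End W)
    (hgal : ∀ (σ : G) (t : TT) (w : W), gal σ (t • w) = t • gal σ w) (σ : G) (w : W) :
    linHom gal hgal σ w = gal σ w := rfl

theorem linHom_eq_one {G : Type*} [Group G] (gal : G →* AddMonoid.End W)
    (hgal : ∀ (σ : G) (t : TT) (w : W), gal σ (t • w) = t • gal σ w) {σ : G} (h : gal σ = 1) :
    linHom gal hgal σ = 1 := by
  refine LinearMap.ext fun w => ?_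
  rw [linHom_apply, h]
  rfl

end Lin

/-! ### The abstract form -/

section Abstract

open Module

/-- **STEPS 3–4, abstract form.** -/
theorem exists_rep_of_finite_module
    {TT : Type} [CommRing TT] {W : Type} [AddCommGroup W] [Finite W]
    (hecke : TT →+* AddMonoid.End W) (gal : Γ →* AddMonoid.End W)
    (hlevel : GaloisFactorsThroughFiniteLevel gal)
    (comm : ∀ (σ : Γ) (t : TT), Commute (gal σ) (hecke t))
    {k : Type} [Field k] (θ : TT →+* k) (hann : ∀ y : TT, hecke y = 0 → θ y = 0)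
    (K : Type) [Field K] [Algebra k K] [IsAlgClosed K] (h2 : (2 : K) ≠ 0)
    (δ : Γ →* (TT ⧸ RingHom.ker θ)ˣ) (hδ : GaloisFactorsThroughFiniteLevel δ)
    (S : Finset ℕ) (T u : ℕ → TT)
    (hfrob : ∀ p, p.Prime → p ∉ S → ∀ A : ValuationSubring Qb, A.LiesOverPrime p →
      ∀ φ : Γ, A.IsFrobeniusAt φ p →
        gal φ * gal φ - hecke (T p) * gal φ + hecke (u p) = 0 ∧
        ((δ φ : (TT ⧸ RingHom.ker θ)ˣ) : TT ⧸ RingHom.ker θ) =
          Ideal.Quotient.mk (RingHom.ker θ) (u p)) :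
    (RingHom.ker θ).IsMaximal ∧ Finite (TT ⧸ RingHom.ker θ) ∧
    ∃ r : Γ →* GL (Fin 2) K,
      GaloisFactorsThroughFiniteLevel r ∧ WeakSS r ∧
      (∀ p, p.Prime → p ∉ S → ∀ A : ValuationSubring Qb, A.LiesOverPrime p →
        ∀ φ : Γ, A.IsFrobeniusAt φ p →
          Matrix.trace (r φ : Matrix (Fin 2) (Fin 2) K) = algebraMap k K (θ (T p)) ∧
          Matrix.det (r φ : Matrix (Fin 2) (Fin 2) K) = algebraMap k K (θ (u p))) ∧
      (∀ g, ∃ t : TT, Matrix.trace (r g : Matrix (Fin 2) (Fin 2) K) = algebraMap k K (θ t)) ∧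
      (∀ g, ∃ t : TT, Matrix.det (r g : Matrix (Fin 2) (Fin 2) K) = algebraMap k K (θ t)) ∧
      (∀ g, gal g = 1 → δ g = 1 → r g = 1) := by
  letI : Module TT W := Module.compHom W hecke
  have hsmul : ∀ (t : TT) (w : W), t • w = hecke t w := fun _ _ => rfl
  have hannm : Module.annihilator TT W ≤ (RingHom.ker θ) := by
    intro y hy
    rw [RingHom.mem_ker]
    apply hann
    ext w
    have := Module.mem_annihilator.mp hy w
    rw [hsmul] at this
    exact this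
  haveI hprime : (RingHom.ker θ).IsPrime := RingHom.ker_isPrime θ
  haveI hmax : (RingHom.ker θ).IsMaximal := isMaximal_of_annihilator_le (RingHom.ker θ) hannm
  haveI hfin : Finite (TT ⧸ (RingHom.ker θ)) := finite_quotient_of_annihilator_le (RingHom.ker θ) hannm
  refine ⟨hmax, hfin, ?_⟩
  letI : Field (TT ⧸ (RingHom.ker θ)) := Ideal.Quotient.field (RingHom.ker θ)
  haveI : Nontrivial (W ⧸ (RingHom.ker θ) • (⊤ : Submodule TT W)) :=
    nontrivial_quotient_smul_top (RingHom.ker θ) hprime.ne_top hannm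
  haveI : Finite (W ⧸ (RingHom.ker θ) • (⊤ : Submodule TT W)) :=
    Finite.of_surjective _ (Submodule.Quotient.mk_surjective ((RingHom.ker θ) • (⊤ : Submodule TT W)))
  haveI : FiniteDimensional (TT ⧸ (RingHom.ker θ)) (W ⧸ (RingHom.ker θ) • (⊤ : Submodule TT W)) := Module.Finite.of_finite
  letI : Algebra (TT ⧸ (RingHom.ker θ)) K := ((algebraMap k K).comp (RingHom.kerLift θ)).toAlgebra
  have halg : ∀ t : TT, algebraMap (TT ⧸ (RingHom.ker θ)) K (Ideal.Quotient.mk (RingHom.ker θ) t) = algebraMap k K (θ t) :=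
    fun t => rfl
  -- the linear Galois action
  have hgalsmul : ∀ (σ : Γ) (t : TT) (w : W), gal σ (t • w) = t • gal σ w := by
    intro σ t w
    rw [hsmul, hsmul]
    exact DFunLike.congr_fun (comm σ t).eq w
  let galV : Γ →* Module.End (TT ⧸ (RingHom.ker θ)) (W ⧸ (RingHom.ker θ) • (⊤ : Submodule TT W)) :=
    ((quotEnd (RingHom.ker θ) : Module.End TT W →+* _) : Module.End TT W →* _).comp (linHom gal hgalsmul)
  have hgalV1 : ∀ σ, gal σ = 1 → galV σ = 1 := fun σ h =>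
    quotEnd_eq_one (RingHom.ker θ) (linHom_eq_one gal hgalsmul h)
  have hgalV : GaloisFactorsThroughFiniteLevel galV := by
    obtain ⟨L, hL, h1⟩ := hlevel
    exact ⟨L, hL, fun σ hσ => hgalV1 σ (h1 σ hσ)⟩
  have hfrobV : ∀ p, p.Prime → p ∉ S → ∀ A : ValuationSubring Qb, A.LiesOverPrime p →
      ∀ φ : Γ, A.IsFrobeniusAt φ p →
        galV φ * galV φ - Ideal.Quotient.mk (RingHom.ker θ) (T p) • galV φ
          + ((δ φ : (TT ⧸ (RingHom.ker θ))ˣ) : TT ⧸ (RingHom.ker θ)) •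
            (1 : Module.End (TT ⧸ (RingHom.ker θ)) (W ⧸ (RingHom.ker θ) • (⊤ : Submodule TT W))) = 0 := by
    intro p hp hpS A hA φ hφ
    obtain ⟨hrel, hδφ⟩ := hfrob p hp hpS A hA φ hφ
    have hlin : linHom gal hgalsmul φ * linHom gal hgalsmul φ - T p • linHom gal hgalsmul φ
        + u p • (1 : Module.End TT W) = 0 := by
      refine LinearMap.ext fun w => ?_
      have := DFunLike.congr_fun hrel w
      exact this
    have := congrArg (quotEnd (RingHom.ker θ)) hlin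
    rw [map_add, map_sub, map_mul, quotEnd_smul, quotEnd_smul, map_one, map_zero] at this
    rw [hδφ]
    exact this
  obtain ⟨r, hr1, hr2, hr3, hr4, hr5, hr6⟩ :=
    exists_residual_rep (k₀ := TT ⧸ (RingHom.ker θ)) K h2 galV hgalV δ hδ S
      (fun p => Ideal.Quotient.mk (RingHom.ker θ) (T p)) hfrobV
  refine ⟨r, hr1, hr2, ?_, ?_, ?_, ?_⟩
  · intro p hp hpS A hA φ hφ
    obtain ⟨h1, h2'⟩ := hr3 p hp hpS A hA φ hφ
    refine ⟨by rw [h1, halg], ?_⟩
    rw [h2', (hfrob p hp hpS A hA φ hφ).2, halg]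
  · intro g
    obtain ⟨p, -, -, hp⟩ := hr5 g
    exact ⟨T p, by rw [hp, halg]⟩
  · intro g
    obtain ⟨t, ht⟩ := Ideal.Quotient.mk_surjective ((δ g : (TT ⧸ (RingHom.ker θ))ˣ) : TT ⧸ (RingHom.ker θ))
    exact ⟨t, by rw [hr4 g, ← ht, halg]⟩
  · intro g hg hd
    exact hr6 g (hgalV1 g hg) hd

end Abstract

/-! ### Finite level: closure properties -/

section Level

theorem finiteLevel_comp {M N : Type} [MulOneClass M] [MulOneClass N] (f : M →* N)
    {ρ : Γ →* M} (hρ : GaloisFactorsThroughFiniteLevel ρ) :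
    GaloisFactorsThroughFiniteLevel (f.comp ρ) := by
  obtain ⟨L, hL, h1⟩ := hρ
  exact ⟨L, hL, fun σ hσ => by rw [MonoidHom.comp_apply, h1 σ hσ, map_one]⟩

theorem finiteLevel_mul {M : Type} [CommMonoid M] {ρ₁ ρ₂ : Γ →* M}
    (h₁ : GaloisFactorsThroughFiniteLevel ρ₁) (h₂ : GaloisFactorsThroughFiniteLevel ρ₂) :
    GaloisFactorsThroughFiniteLevel (ρ₁ * ρ₂) := by
  obtain ⟨L₁, hfd₁, hL₁⟩ := h₁
  obtain ⟨L₂, hfd₂, hL₂⟩ := h₂
  refine ⟨L₁ ⊔ L₂, IntermediateField.finiteDimensional_sup L₁ L₂, fun σ hσ => ?_⟩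
  rw [MonoidHom.mul_apply, hL₁ σ fun x hx => hσ x (le_sup_left (a := L₁) (b := L₂) hx),
    hL₂ σ fun x hx => hσ x (le_sup_right (a := L₁) (b := L₂) hx), one_mul]

theorem finiteLevel_inv {M : Type} [CommGroup M] {ρ : Γ →* M}
    (h : GaloisFactorsThroughFiniteLevel ρ) : GaloisFactorsThroughFiniteLevel ρ⁻¹ := by
  obtain ⟨L, hL, h1⟩ := h
  exact ⟨L, hL, fun σ hσ => by rw [MonoidHom.inv_apply, h1 σ hσ, inv_one]⟩

end Level

/-! ### The concrete form -/

section Concrete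

variable {M : ℕ} [NeZero M] {H : HeckeOps1 M 2} {ℓ : ℕ} {S : Finset ℕ}

/-- the exponent `±1` of the diamond operator in the Eichler–Shimura relation of `D`, applied to
a homomorphism to `(ZMod M)ˣ`. -/
noncomputable def diamTwist (D : TorsionHeckeData1 H ℓ S) (χ : Γ →* (ZMod M)ˣ) :
    Γ →* (ZMod M)ˣ :=
  if D.diamInv then χ⁻¹ else χ

theorem diamTwist_apply (D : TorsionHeckeData1 H ℓ S) (χ : Γ →* (ZMod M)ˣ) (σ : Γ) :
    diamTwist D χ σ = if D.diamInv then (χ σ)⁻¹ else χ σ := by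
  unfold diamTwist
  split_ifs <;> rfl

theorem diamTwist_eq_one (D : TorsionHeckeData1 H ℓ S) (χ : Γ →* (ZMod M)ˣ) {σ : Γ}
    (h : χ σ = 1) : diamTwist D χ σ = 1 := by
  rw [diamTwist_apply, h]
  split_ifs <;> simp

theorem finiteLevel_diamTwist (D : TorsionHeckeData1 H ℓ S) {χ : Γ →* (ZMod M)ˣ}
    (h : GaloisFactorsThroughFiniteLevel χ) : GaloisFactorsThroughFiniteLevel (diamTwist D χ) := by
  unfold diamTwist
  split_ifs
  · exact finiteLevel_inv h
  · exact h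

/-- **STEPS 3–4 of DS2-top**: the residual representation attached to a ring homomorphism
`θ : D.TT →+* k` (`char k = ℓ ≠ 2`) of the Hecke ring of a torsion datum `D` for `J₁(M)`, over
any algebraically closed field `K ⊇ k`. -/
theorem exists_rep_of_torsionHeckeData1 (D : TorsionHeckeData1 H ℓ S) (hℓ : ℓ.Prime)
    {k : Type} [Field k] [CharP k ℓ] (θ : D.TT →+* k)
    (K : Type) [Field K] [Algebra k K] [IsAlgClosed K] (h2 : (2 : K) ≠ 0) :
    (RingHom.ker θ).IsMaximal ∧ Finite (D.TT ⧸ RingHom.ker θ) ∧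
    ∃ r : Γ →* GL (Fin 2) K,
      GaloisFactorsThroughFiniteLevel r ∧ WeaklySemisimple r ∧
      (∀ (p : ℕ) (hp : p.Prime) (hpM : ¬ p ∣ M), p ∉ S → p ≠ ℓ →
        ∀ A : ValuationSubring Qb, A.LiesOverPrime p →
          (∀ τ ∈ A.inertiaSubgroupIn ℚ, r τ = 1) ∧
          ∀ φ : Γ, A.IsFrobeniusAt φ p →
            Matrix.trace (r φ : Matrix (Fin 2) (Fin 2) K) = algebraMap k K (θ (D.Tel p)) ∧
            Matrix.det (r φ : Matrix (Fin 2) (Fin 2) K) =
              algebraMap k K ((p : k) * θ (D.Del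
                (if D.diamInv then
                  (ZMod.unitOfCoprime p ((Nat.Prime.coprime_iff_not_dvd hp).mpr hpM))⁻¹
                else ZMod.unitOfCoprime p ((Nat.Prime.coprime_iff_not_dvd hp).mpr hpM))))) ∧
      (∀ g, ∃ t : D.TT, Matrix.trace (r g : Matrix (Fin 2) (Fin 2) K) = algebraMap k K (θ t)) ∧
      (∀ g, ∃ t : D.TT, Matrix.det (r g : Matrix (Fin 2) (Fin 2) K) = algebraMap k K (θ t)) := by
  classical
  haveI : NeZero ℓ := ⟨hℓ.ne_zero⟩
  obtain ⟨c0, hc0⟩ := D.faithful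
  -- the annihilator of `Mod (1 + c0)` is killed by `θ`
  have hann : ∀ y : D.TT, D.hecke (1 + c0) y = 0 → θ y = 0 := by
    intro y hy
    obtain ⟨y', rfl⟩ := hc0 y 1 hy
    rw [zsmul_eq_mul, map_mul, pow_one, map_intCast, Int.cast_natCast, CharP.cast_eq_zero,
      zero_mul]
  -- the residue field and its characteristic
  haveI hchar : CharP (D.TT ⧸ RingHom.ker θ) ℓ :=
    RingHom.charP (RingHom.kerLift θ) (RingHom.kerLift_injective θ) ℓ
  -- the character `δ`
  let δ₁ : Γ →* (D.TT ⧸ RingHom.ker θ)ˣ :=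
    (Units.map ((ZMod.castHom (dvd_refl ℓ) (D.TT ⧸ RingHom.ker θ) :
      ZMod ℓ →+* D.TT ⧸ RingHom.ker θ) : ZMod ℓ →* D.TT ⧸ RingHom.ker θ)).comp (cycloMod ℓ)
  let δ₂ : Γ →* (D.TT ⧸ RingHom.ker θ)ˣ :=
    ((((Ideal.Quotient.mk (RingHom.ker θ) : D.TT →+* D.TT ⧸ RingHom.ker θ) :
      D.TT →* D.TT ⧸ RingHom.ker θ).comp D.Del).toHomUnits).comp (diamTwist D (cycloMod M))
  have hδ : GaloisFactorsThroughFiniteLevel (δ₁ * δ₂) :=
    finiteLevel_mul (finiteLevel_comp _ (cycloMod_level ℓ))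
      (finiteLevel_comp _ (finiteLevel_diamTwist D (cycloMod_level M)))
  have hδ₁ : ∀ σ, ((δ₁ σ : (D.TT ⧸ RingHom.ker θ)ˣ) : D.TT ⧸ RingHom.ker θ) =
      ZMod.castHom (dvd_refl ℓ) (D.TT ⧸ RingHom.ker θ) ((cycloMod ℓ σ : (ZMod ℓ)ˣ) : ZMod ℓ) :=
    fun σ => rfl
  have hδ₂ : ∀ σ, ((δ₂ σ : (D.TT ⧸ RingHom.ker θ)ˣ) : D.TT ⧸ RingHom.ker θ) =
      Ideal.Quotient.mk (RingHom.ker θ) (D.Del (diamTwist D (cycloMod M) σ)) :=
    fun σ => rfl
  -- the exceptional set and the coefficients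
  let S' : Finset ℕ := S ∪ {ℓ} ∪ M.primeFactors
  have hS' : ∀ p, p.Prime → (p ∉ S' ↔ p ∉ S ∧ p ≠ ℓ ∧ ¬ p ∣ M) := by
    intro p hp
    simp only [S', Finset.mem_union, Finset.mem_singleton, Nat.mem_primeFactors, not_or, not_and,
      and_assoc]
    constructor
    · rintro ⟨h1, h2', h3⟩
      exact ⟨h1, h2', fun hd => h3 hp hd (NeZero.ne M)⟩
    · rintro ⟨h1, h2', h3⟩
      exact ⟨h1, h2', fun _ hd _ => h3 hd⟩
  let u : ℕ → D.TT := fun p =>
    if h : p.Prime ∧ ¬ p ∣ M then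
      (p : D.TT) * D.Del (if D.diamInv then
        (ZMod.unitOfCoprime p ((Nat.Prime.coprime_iff_not_dvd h.1).mpr h.2))⁻¹
      else ZMod.unitOfCoprime p ((Nat.Prime.coprime_iff_not_dvd h.1).mpr h.2))
    else 0
  have hu : ∀ (p : ℕ) (hp : p.Prime) (hpM : ¬ p ∣ M), u p =
      (p : D.TT) * D.Del (if D.diamInv then
        (ZMod.unitOfCoprime p ((Nat.Prime.coprime_iff_not_dvd hp).mpr hpM))⁻¹
      else ZMod.unitOfCoprime p ((Nat.Prime.coprime_iff_not_dvd hp).mpr hpM)) := by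
    intro p hp hpM
    exact dif_pos ⟨hp, hpM⟩
  have hfrob : ∀ p, p.Prime → p ∉ S' → ∀ A : ValuationSubring Qb, A.LiesOverPrime p →
      ∀ φ : Γ, A.IsFrobeniusAt φ p →
        D.gal (1 + c0) φ * D.gal (1 + c0) φ - D.hecke (1 + c0) (D.Tel p) * D.gal (1 + c0) φ
          + D.hecke (1 + c0) (u p) = 0 ∧
        (((δ₁ * δ₂) φ : (D.TT ⧸ RingHom.ker θ)ˣ) : D.TT ⧸ RingHom.ker θ) =
          Ideal.Quotient.mk (RingHom.ker θ) (u p) := by
    intro p hp hpS' A hA φ hφ
    obtain ⟨hpS, hpℓ, hpM⟩ := (hS' p hp).mp hpS'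
    have hpℓ' : ¬ p ∣ ℓ := fun hd => hpℓ ((Nat.prime_dvd_prime_iff_eq hp hℓ).mp hd)
    refine ⟨?_, ?_⟩
    · have := D.eichlerShimura (1 + c0) p hp hpM hpS A hA φ hφ
      rw [hu p hp hpM, map_mul, map_natCast]
      exact this
    · rw [MonoidHom.mul_apply, Units.val_mul, hδ₁, hδ₂, cycloMod_frob ℓ hp hpℓ' A hA φ hφ,
        diamTwist_apply, cycloMod_frob M hp hpM A hA φ hφ, ZMod.coe_unitOfCoprime, map_natCast,
        hu p hp hpM, map_mul, map_natCast]
  obtain ⟨hmax, hfin, r, hr1, hr2, hr3, hr4, hr5, hr6⟩ :=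
    exists_rep_of_finite_module (D.hecke (1 + c0)) (D.gal (1 + c0)) (D.gal_level (1 + c0))
      (D.comm (1 + c0)) θ hann K h2 (δ₁ * δ₂) hδ S' D.Tel u hfrob
  refine ⟨hmax, hfin, r, hr1, fun v hv h => hr2 v hv h, ?_, hr4, hr5⟩
  intro p hp hpM hpS hpℓ A hA
  have hpℓ' : ¬ p ∣ ℓ := fun hd => hpℓ ((Nat.prime_dvd_prime_iff_eq hp hℓ).mp hd)
  refine ⟨?_, ?_⟩
  · intro τ hτ
    apply hr6 τ (D.unram (1 + c0) p hp hpS A hA τ hτ)
    apply Units.ext
    rw [MonoidHom.mul_apply, Units.val_mul, hδ₁, hδ₂, cycloMod_inertia ℓ hp hpℓ' A hA τ hτ,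
      diamTwist_eq_one D _ (cycloMod_inertia M hp hpM A hA τ hτ), Units.val_one, map_one, map_one,
      map_one, one_mul, Units.val_one]
  · intro φ hφ
    obtain ⟨h1, h2'⟩ := hr3 p hp ((hS' p hp).mpr ⟨hpS, hpℓ, hpM⟩) A hA φ hφ
    refine ⟨h1, ?_⟩
    rw [h2', hu p hp hpM, map_mul, map_natCast]

end Concrete

end Fermat.Agent.S48x.Extract
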